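import Mathlib

/-!
# Program G (S28), chapter IG/SCH: gluing integrality along an open cover

`isIntegral_of_openCover`: a scheme `P` with an open cover by integral schemes, all of whose
members meet one fixed member `i₀`, is integral.
-/

set_option autoImplicit false

open CategoryTheory CategoryTheory.Limits AlgebraicGeometry

namespace Fermat.Agent.IG.SCH.GlueIntegral13

universe u

/-- Topological gluing: a space covered by open preirreducible sets `R i`, all of which meet a fixed
one `R i₀`, is preirreducible. -/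
theorem preirreducibleSpace_of_cover {X : Type*} [TopologicalSpace X] {ι : Type*}
    (R : ι → Set X) (hcov : ∀ x : X, ∃ i, x ∈ R i) (hopen : ∀ i, IsOpen (R i))
    (hirr : ∀ i, IsPreirreducible (R i)) (i₀ : ι) (hmeet : ∀ i, (R i₀ ∩ R i).Nonempty) :
    PreirreducibleSpace X := by
  have key : ∀ W : Set X, IsOpen W → W.Nonempty → (R i₀ ∩ W).Nonempty := by
    intro W hW ⟨x, hx⟩
    obtain ⟨i, hi⟩ := hcov x
    have h1 : (R i ∩ W).Nonempty := ⟨x, hi, hx⟩
    have h2 : (R i ∩ R i₀).Nonempty := by
      obtain ⟨y, hy0, hyi⟩ := hmeet i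
      exact ⟨y, hyi, hy0⟩
    obtain ⟨z, -, hzW, hz0⟩ := hirr i W (R i₀) hW (hopen i₀) h1 h2
    exact ⟨z, hz0, hzW⟩
  refine PreirreducibleSpace.of_forall_nonempty_inter ?_
  intro U V hU hV hUne hVne
  obtain ⟨z, -, hz⟩ := hirr i₀ U V hU hV (key U hU hUne) (key V hV hVne)
  exact ⟨z, hz⟩

/-- A scheme with an open cover by irreducible schemes all of which meet the member `i₀`
is irreducible. -/
theorem irreducibleSpace_of_openCover {P : Scheme.{u}} (𝒰 : P.OpenCover)
    [∀ i, IrreducibleSpace (𝒰.X i)] (i₀ : 𝒰.I₀)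
    (h : ∀ i, (Set.range (𝒰.f i₀).base ∩ Set.range (𝒰.f i).base).Nonempty) :
    IrreducibleSpace P := by
  have : PreirreducibleSpace P := by
    refine preirreducibleSpace_of_cover (fun i => Set.range (𝒰.f i).base) ?_ ?_ ?_ i₀ h
    · intro x
      obtain ⟨i, y, hy⟩ := 𝒰.exists_eq x
      exact ⟨i, y, hy⟩
    · intro i
      exact (𝒰.f i).isOpenEmbedding.isOpen_range
    · intro i
      have := (IrreducibleSpace.isIrreducible_univ (𝒰.X i)).image (𝒰.f i).base
        (𝒰.f i).continuous.continuousOn
      rw [Set.image_univ] at this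
      exact this.isPreirreducible
  obtain ⟨x, -, -⟩ := h i₀
  exact ⟨⟨x⟩⟩

/-- **Gluing integrality.** A scheme with an open cover by integral schemes all of which meet the
member `i₀` is integral. -/
theorem isIntegral_of_openCover {P : Scheme.{u}} (𝒰 : P.OpenCover)
    [∀ i, IsIntegral (𝒰.X i)] (i₀ : 𝒰.I₀)
    (h : ∀ i, (Set.range (𝒰.f i₀).base ∩ Set.range (𝒰.f i).base).Nonempty) :
    IsIntegral P := by
  have : IsReduced P := IsReduced.of_openCover P 𝒰
  have : IrreducibleSpace P := irreducibleSpace_of_openCover 𝒰 i₀ h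
  exact isIntegral_of_irreducibleSpace_of_isReduced P

/-- **Gluing integrality, family version.** A scheme `P` with a jointly surjective family of open
immersions `f i : U i ⟶ P` from integral schemes, all of whose ranges meet the range of `f i₀`,
is integral. -/
theorem isIntegral_of_family {P : Scheme.{u}} {ι : Type*} (U : ι → Scheme.{u})
    (f : ∀ i, U i ⟶ P) [hf : ∀ i, IsOpenImmersion (f i)] [hU : ∀ i, IsIntegral (U i)]
    (hcov : ∀ x : P, ∃ i, x ∈ Set.range (f i).base) (i₀ : ι)
    (h : ∀ i, (Set.range (f i₀).base ∩ Set.range (f i).base).Nonempty) :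
    IsIntegral P := by
  let 𝒰 : P.OpenCover := Scheme.Cover.mkOfCovers ι U f
    (fun x => by
      obtain ⟨i, y, hy⟩ := hcov x
      exact ⟨i, y, hy⟩) hf
  have : ∀ i, IsIntegral (𝒰.X i) := hU
  exact isIntegral_of_openCover 𝒰 i₀ h

end Fermat.Agent.IG.SCH.GlueIntegral13
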