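import Mathlib
import Fermat.Prelude.Def_ModularCurve_IgusaScheme
import Fermat.Agent.IG.SCH.GlueIntegral13

/-!
# Program G (S28), chapter IG/SCH (blueprint §1(e)): the scheme plumbing

Main results (`K` any field with an algebra structure over `ℤℓ := GaloisRep.ratLocalizedAt ℓ`):

* `isIntegral_pullback_igusaTo` (instance-argument form) and `s28_of_domains`
  (explicit-hypothesis form): if `chartAlgFin N ℓ ⊗[ℤℓ] K` and `chartAlgInf N ℓ ⊗[ℤℓ] K` are
  domains and `chartAlgMid N ℓ ⊗[ℤℓ] K` is nontrivial, then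
  `pullback (igusaTo N ℓ) (Spec.map (CommRingCat.ofHom (algebraMap ℤℓ K)))` is integral.
  This is exactly the conclusion of the frozen statement S28.

The three members `PU j` of the induced cover of the pullback are the pullbacks of the three charts
(`zero` = middle, `left` = finite, `right` = infinite); they are identified with
`Spec (A ⊗[ℤℓ] K)` by `pullbackSpecIso`.
-/

set_option autoImplicit false
set_option maxHeartbeats 4000000
set_option synthInstance.maxHeartbeats 400000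

open CategoryTheory CategoryTheory.Limits AlgebraicGeometry ModularCurve ModularCurve.IgusaScheme
open TensorProduct

noncomputable section

namespace Fermat.Agent.IG.SCH.ChartPullback13

variable (N : ℕ) [NeZero N] (ℓ : ℕ) [Fact ℓ.Prime]
variable (K : Type) [Field K] [Algebra ↥(GaloisRep.ratLocalizedAt ℓ) K]

/-- The span diagram `XFin ⟵ XMid ⟶ XInf` whose colimit is the Igusa scheme. -/
abbrev spn : WalkingSpan ⥤ Scheme.{0} := span (fFin N ℓ) (fInf N ℓ)

/-- The three chart maps (`zero` = middle, `left` = finite, `right` = infinite chart). -/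
abbrev chart (j : WalkingSpan) : (spn N ℓ).obj j ⟶ ModularCurve.IgusaScheme N ℓ :=
  colimit.ι (spn N ℓ) j

instance chart_isOpenImmersion (j : WalkingSpan) : IsOpenImmersion (chart N ℓ j) :=
  (Scheme.IsLocallyDirected.openCover (spn N ℓ)).map_prop j

/-- The base-change morphism `Spec K ⟶ Spec ℤℓ`. -/
abbrev gK : Spec (CommRingCat.of K) ⟶ Spec (CommRingCat.of ↥(GaloisRep.ratLocalizedAt ℓ)) :=
  Spec.map (CommRingCat.ofHom (algebraMap ↥(GaloisRep.ratLocalizedAt ℓ) K))

theorem chart_left : chart N ℓ WalkingSpan.left = ιFin N ℓ := rfl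
theorem chart_right : chart N ℓ WalkingSpan.right = ιInf N ℓ := rfl

/-- The middle chart maps to every chart. -/
theorem chart_zero_eq {j : WalkingSpan} (φ : WalkingSpan.zero ⟶ j) :
    chart N ℓ WalkingSpan.zero = (spn N ℓ).map φ ≫ chart N ℓ j :=
  (colimit.w (spn N ℓ) φ).symm

theorem chart_left_comp : chart N ℓ WalkingSpan.left ≫ igusaTo N ℓ =
    Spec.map (CommRingCat.ofHom (algebraMap ↥(GaloisRep.ratLocalizedAt ℓ) (chartAlgFin N ℓ))) :=
  ιFin_igusaTo N ℓ

theorem chart_right_comp : chart N ℓ WalkingSpan.right ≫ igusaTo N ℓ =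
    Spec.map (CommRingCat.ofHom (algebraMap ↥(GaloisRep.ratLocalizedAt ℓ) (chartAlgInf N ℓ))) :=
  ιInf_igusaTo N ℓ

theorem chart_zero_comp : chart N ℓ WalkingSpan.zero ≫ igusaTo N ℓ =
    Spec.map (CommRingCat.ofHom (algebraMap ↥(GaloisRep.ratLocalizedAt ℓ) (chartAlgMid N ℓ))) := by
  have h1 : chart N ℓ WalkingSpan.zero ≫ igusaTo N ℓ = (fFin N ℓ ≫ ιFin N ℓ) ≫ igusaTo N ℓ :=
    congrArg (fun t => t ≫ igusaTo N ℓ) (chart_zero_eq N ℓ WalkingSpan.Hom.fst)
  refine h1.trans ?_
  have h2 : (inclFin N ℓ).toRingHom.comp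
      (algebraMap ↥(GaloisRep.ratLocalizedAt ℓ) (chartAlgFin N ℓ)) =
      algebraMap ↥(GaloisRep.ratLocalizedAt ℓ) (chartAlgMid N ℓ) :=
    RingHom.ext fun a => (inclFin N ℓ).commutes a
  rw [Category.assoc, ιFin_igusaTo, ← Spec.map_comp, ← CommRingCat.ofHom_comp, h2]

/-- The members of the induced cover of the pullback. -/
abbrev PU (j : WalkingSpan) : Scheme.{0} := pullback (chart N ℓ j ≫ igusaTo N ℓ) (gK ℓ K)

/-- The open immersions of the induced cover of the pullback. -/
abbrev pf (j : WalkingSpan) : PU N ℓ K j ⟶ pullback (igusaTo N ℓ) (gK ℓ K) :=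
  pullback.map (chart N ℓ j ≫ igusaTo N ℓ) (gK ℓ K) (igusaTo N ℓ) (gK ℓ K)
    (chart N ℓ j) (𝟙 _) (𝟙 _) (by simp) (by simp)

theorem pf_cover (x : ↥(pullback (igusaTo N ℓ) (gK ℓ K))) :
    ∃ j, x ∈ Set.range (pf N ℓ K j).base := by
  obtain ⟨j, y, hy⟩ := (Scheme.Pullback.openCoverOfLeft
    (Scheme.IsLocallyDirected.openCover (spn N ℓ)) (igusaTo N ℓ) (gK ℓ K)).exists_eq x
  exact ⟨j, y, hy⟩

/-- Base change of an affine chart: if `A ⊗[R] K` is a domain, then the pullback of
`Spec A ⟶ Spec R` along `Spec K ⟶ Spec R` is integral. -/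
theorem isIntegral_pullback_spec {R A L : Type} [CommRing R] [CommRing A] [CommRing L]
    [Algebra R A] [Algebra R L] [IsDomain (A ⊗[R] L)]
    (φ : Spec (CommRingCat.of A) ⟶ Spec (CommRingCat.of R))
    (hφ : φ = Spec.map (CommRingCat.ofHom (algebraMap R A))) :
    IsIntegral (pullback φ (Spec.map (CommRingCat.ofHom (algebraMap R L)))) := by
  subst hφ
  exact IsIntegral.of_isIso (pullbackSpecIso R A L).inv

theorem nonempty_pullback_spec {R A L : Type} [CommRing R] [CommRing A] [CommRing L]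
    [Algebra R A] [Algebra R L] [Nontrivial (A ⊗[R] L)]
    (φ : Spec (CommRingCat.of A) ⟶ Spec (CommRingCat.of R))
    (hφ : φ = Spec.map (CommRingCat.ofHom (algebraMap R A))) :
    Nonempty ↥(pullback φ (Spec.map (CommRingCat.ofHom (algebraMap R L)))) := by
  subst hφ
  obtain ⟨x⟩ : Nonempty ↥(Spec (CommRingCat.of (A ⊗[R] L))) :=
    inferInstanceAs (Nonempty (PrimeSpectrum (A ⊗[R] L)))
  exact ⟨(pullbackSpecIso R A L).inv.base x⟩

theorem isIntegral_PU_left
    [IsDomain ((chartAlgFin N ℓ) ⊗[↥(GaloisRep.ratLocalizedAt ℓ)] K)] :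
    IsIntegral (PU N ℓ K WalkingSpan.left) :=
  isIntegral_pullback_spec (R := ↥(GaloisRep.ratLocalizedAt ℓ)) (A := chartAlgFin N ℓ) (L := K)
    _ (chart_left_comp N ℓ)

theorem isIntegral_PU_right
    [IsDomain ((chartAlgInf N ℓ) ⊗[↥(GaloisRep.ratLocalizedAt ℓ)] K)] :
    IsIntegral (PU N ℓ K WalkingSpan.right) :=
  isIntegral_pullback_spec (R := ↥(GaloisRep.ratLocalizedAt ℓ)) (A := chartAlgInf N ℓ) (L := K)
    _ (chart_right_comp N ℓ)

theorem nonempty_PU_zero
    [Nontrivial ((chartAlgMid N ℓ) ⊗[↥(GaloisRep.ratLocalizedAt ℓ)] K)] :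
    Nonempty ↥(PU N ℓ K WalkingSpan.zero) :=
  nonempty_pullback_spec (R := ↥(GaloisRep.ratLocalizedAt ℓ)) (A := chartAlgMid N ℓ) (L := K)
    _ (chart_zero_comp N ℓ)

/-- The transition map from the middle member of the pullback cover to the member `j`. -/
def trans {j : WalkingSpan} (φ : WalkingSpan.zero ⟶ j) :
    PU N ℓ K WalkingSpan.zero ⟶ PU N ℓ K j :=
  pullback.map (chart N ℓ WalkingSpan.zero ≫ igusaTo N ℓ) (gK ℓ K)
    (chart N ℓ j ≫ igusaTo N ℓ) (gK ℓ K)
    ((spn N ℓ).map φ) (𝟙 _) (𝟙 _)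
    (by rw [Category.comp_id, chart_zero_eq N ℓ φ, Category.assoc])
    (by rw [Category.comp_id, Category.id_comp])

theorem trans_comp {j : WalkingSpan} (φ : WalkingSpan.zero ⟶ j) :
    trans N ℓ K φ ≫ pf N ℓ K j = pf N ℓ K WalkingSpan.zero := by
  apply pullback.hom_ext
  · simp only [trans, pf, Category.assoc, pullback.lift_fst, pullback.map]
    rw [← Category.assoc, pullback.lift_fst, Category.assoc, ← chart_zero_eq N ℓ φ]
  · simp only [trans, pf, Category.assoc, pullback.lift_snd, pullback.map]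
    rw [← Category.assoc, pullback.lift_snd, Category.assoc, Category.comp_id]


instance trans_fst_isOpenImmersion : IsOpenImmersion (trans N ℓ K WalkingSpan.Hom.fst) := by
  have : IsOpenImmersion ((spn N ℓ).map WalkingSpan.Hom.fst) := isOpenImmersion_fFin N ℓ
  unfold trans
  infer_instance

theorem isIntegral_PU_zero
    [IsDomain ((chartAlgFin N ℓ) ⊗[↥(GaloisRep.ratLocalizedAt ℓ)] K)]
    [Nontrivial ((chartAlgMid N ℓ) ⊗[↥(GaloisRep.ratLocalizedAt ℓ)] K)] :
    IsIntegral (PU N ℓ K WalkingSpan.zero) := by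
  have := isIntegral_PU_left N ℓ K
  have := nonempty_PU_zero N ℓ K
  exact isIntegral_of_isOpenImmersion (trans N ℓ K WalkingSpan.Hom.fst)

/-- **IG/SCH main theorem.** If the base changes to `K` of the finite and infinite chart algebras
are domains and that of the middle chart algebra is nontrivial, then the base change of the Igusa
scheme to `K` is integral. -/
theorem isIntegral_pullback_igusaTo
    [IsDomain ((chartAlgFin N ℓ) ⊗[↥(GaloisRep.ratLocalizedAt ℓ)] K)]
    [IsDomain ((chartAlgInf N ℓ) ⊗[↥(GaloisRep.ratLocalizedAt ℓ)] K)]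
    [Nontrivial ((chartAlgMid N ℓ) ⊗[↥(GaloisRep.ratLocalizedAt ℓ)] K)] :
    IsIntegral ↑(pullback (igusaTo N ℓ)
      (Spec.map (CommRingCat.ofHom (algebraMap ↥(GaloisRep.ratLocalizedAt ℓ) K)))) := by
  have hint : ∀ j, IsIntegral (PU N ℓ K j) := by
    intro j
    rcases j with _ | _ | _
    · exact isIntegral_PU_zero N ℓ K
    · exact isIntegral_PU_left N ℓ K
    · exact isIntegral_PU_right N ℓ K
  refine GlueIntegral13.isIntegral_of_family (PU N ℓ K) (pf N ℓ K) (pf_cover N ℓ K)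
    WalkingSpan.zero ?_
  intro j
  obtain ⟨p⟩ := nonempty_PU_zero N ℓ K
  have φ : WalkingSpan.zero ⟶ j := by
    rcases j with _ | _ | _
    · exact 𝟙 _
    · exact WalkingSpan.Hom.fst
    · exact WalkingSpan.Hom.snd
  refine ⟨(pf N ℓ K WalkingSpan.zero).base p, ⟨p, rfl⟩, ⟨(trans N ℓ K φ).base p, ?_⟩⟩
  rw [← trans_comp N ℓ K φ]
  rfl

/-- **IG/SCH main theorem, explicit-hypothesis form** (the interface consumed by `S28.lean`):
the three hypotheses are the deliverables of chapter IG/VAL (blueprint §1(d)). -/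
theorem s28_of_domains
    (hFin : IsDomain ((chartAlgFin N ℓ) ⊗[↥(GaloisRep.ratLocalizedAt ℓ)] K))
    (hInf : IsDomain ((chartAlgInf N ℓ) ⊗[↥(GaloisRep.ratLocalizedAt ℓ)] K))
    (hMid : Nontrivial ((chartAlgMid N ℓ) ⊗[↥(GaloisRep.ratLocalizedAt ℓ)] K)) :
    IsIntegral ↑(pullback (igusaTo N ℓ)
      (Spec.map (CommRingCat.ofHom (algebraMap ↥(GaloisRep.ratLocalizedAt ℓ) K)))) :=
  isIntegral_pullback_igusaTo N ℓ K

end Fermat.Agent.IG.SCH.ChartPullback13
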