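import Fermat.Agent.IG.Interface4
import Fermat.Agent.IG.SCH.ChartPullback13

/-!
# Program G (S28), chapter IG/SCH: the deliverable `SchemeStep N ℓ` of `IG/Interface4`

`schemeStep N ℓ : Interface4.SchemeStep N ℓ` — proved unconditionally (no arithmetic input),
from `ChartPullback13.s28_of_domains`.  Together with `Interface4.s28_of` this reduces S28 to
`Interface4.ChartDomain N ℓ` (the deliverable of chapter IG/VAL).
-/

set_option autoImplicit false

open AlgebraicGeometry CategoryTheory CategoryTheory.Limits ModularCurve ModularCurve.IgusaScheme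
open scoped TensorProduct

noncomputable section

namespace Fermat.Agent.IG.SCH.SchemeStep13

variable (N : ℕ) [NeZero N] (ℓ : ℕ) [Fact ℓ.Prime]

/-- **(SCH)**, the complete deliverable of chapter IG/SCH. -/
theorem schemeStep : Interface4.SchemeStep N ℓ := by
  intro K _ _ h
  obtain ⟨hFin, hInf, hMid⟩ := h
  exact ChartPullback13.s28_of_domains N ℓ K hFin hInf hMid.toNontrivial

/-- S28 from (DOM) alone, in the literal shape of the frozen statement. -/
theorem s28_of_chartDomain (hdom : Interface4.ChartDomain N ℓ)
    (K : Type) [Field K] [CharP K ℓ] [Algebra ↥(GaloisRep.ratLocalizedAt ℓ) K] :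
    IsIntegral ↑(pullback (igusaTo N ℓ)
      (Spec.map (CommRingCat.ofHom (algebraMap ↥(GaloisRep.ratLocalizedAt ℓ) K)))) :=
  Interface4.s28_of N ℓ hdom (schemeStep N ℓ) K

end Fermat.Agent.IG.SCH.SchemeStep13
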